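import Fermat.Agent.HeckeDuality.DiagForms

/-!
# The relation `g ∣ S = -p⁻¹ (U g)(τ / p)` in weight two on `Γ₀(p)`
-/

set_option autoImplicit false

noncomputable section

open UpperHalfPlane hiding I
open Matrix.SpecialLinearGroup (mapGL)
open CongruenceSubgroup ModularGroup ModularForm
open Fermat.Agent.ModFun (affine coe_affine)
open scoped MatrixGroups ModularForm Manifold

namespace Fermat.Agent.HeckeDuality

variable {p : ℕ}


theorem finiteRelIndex_gamma0 (hp : p.Prime) :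
    ((Gamma0 p).map (mapGL ℝ)).IsFiniteRelIndex 𝒮ℒ := by
  constructor
  rw [Subgroup.relIndex, Subgroup.index, natCard_cosets hp]
  exact Nat.succ_ne_zero p

/-- The sum over the cosets of a weight two form vanishes. -/
theorem trace_two_eq_zero (hp : p.Prime) (g : ModularForm ((Gamma0 p).map (mapGL ℝ)) 2) :
    ⇑g + ∑ j : Fin p, (⇑g) ∣[(2 : ℤ)] stPow j = 0 := by
  have := finiteRelIndex_gamma0 hp
  let := Fintype.ofFinite ((𝒮ℒ : Subgroup (GL (Fin 2) ℝ)) ⧸ ((Gamma0 p).map (mapGL ℝ)).subgroupOf 𝒮ℒ)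
  have h : ⇑(ModularForm.trace 𝒮ℒ g) =
      ⇑g + ∑ j : Fin p, (⇑g) ∣[(2 : ℤ)] stPow j := by
    rw [ModularForm.coe_trace]
    convert! sum_quotientFunc hp g using 2
  rw [← h, weight_two_eq_zero (ModularForm.trace 𝒮ℒ g)]
  rfl

/-- The translates of `f ∣ S` have period `p`. -/
theorem slash_S_vadd {k : ℤ} {f : ℍ → ℂ} (hf : ∀ γ ∈ Gamma0 p, f ∣[k] γ = f) (τ : ℍ) :
    (f ∣[k] S) ((p : ℝ) +ᵥ τ) = (f ∣[k] S) τ := by
  have hmem : stPow p * (stPow 0)⁻¹ ∈ Gamma0 p := by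
    rw [Gamma0_mem, mul_inv_stPow_apply, coe_stPow]
    simp
  have h : f ∣[k] stPow p = f ∣[k] stPow 0 := by
    rw [← inv_mul_cancel_right (stPow p) (stPow 0), SlashAction.slash_mul, hf _ hmem]
  have h1 := congrFun h τ
  rw [slash_stPow_apply, slash_stPow_apply] at h1
  simpa using h1

theorem invariant_of_form {k : ℤ} {F : Type*} [FunLike F ℍ ℂ]
    [SlashInvariantFormClass F ((Gamma0 p).map (mapGL ℝ)) k] (g : F) :
    ∀ γ ∈ Gamma0 p, (⇑g) ∣[k] γ = ⇑g :=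
  fun γ hγ => SlashInvariantFormClass.slash_action_eq g _ ⟨γ, hγ, rfl⟩

theorem perH_one_of_form {k : ℤ} {F : Type*} [FunLike F ℍ ℂ]
    [SlashInvariantFormClass F ((Gamma0 p).map (mapGL ℝ)) k] (g : F) (τ : ℍ) : g ((1 : ℝ) +ᵥ τ) = g τ :=
  SlashInvariantForm.vAdd_apply_of_mem_strictPeriods g τ
    (CongruenceSubgroup.one_mem_strictPeriods_Gamma0 p)

/-- `U g ∣ S` in weight two. -/
theorem heckeU_slash_S [NeZero p] (hp : p.Prime) (g : ModularForm ((Gamma0 p).map (mapGL ℝ)) 2) :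
    heckeU 2 p ⇑g ∣[(2 : ℤ)] S =
      ((⇑g) ∣[(2 : ℤ)] S) ∣[(2 : ℤ)] heckeDiagMatrix p + heckeU 2 p ⇑g -
        (⇑g) ∣[(2 : ℤ)] heckeMatrix p 0 := by
  have : Fact p.Prime := ⟨hp⟩
  have hp0 : (0 : ℕ) ∈ Finset.range p := Finset.mem_range.2 hp.pos
  rw [heckeU_def, SlashAction.sum_slash]
  rw [← Finset.add_sum_erase _ _ hp0, ← Finset.add_sum_erase _ _ hp0]
  have h0 : ((⇑g) ∣[(2 : ℤ)] heckeMatrix p 0) ∣[(2 : ℤ)] S =
      ((⇑g) ∣[(2 : ℤ)] S) ∣[(2 : ℤ)] heckeDiagMatrix p := by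
    show ((⇑g) ∣[(2 : ℤ)] heckeMatrix p 0) ∣[(2 : ℤ)] mapGL ℝ S =
      ((⇑g) ∣[(2 : ℤ)] mapGL ℝ S) ∣[(2 : ℤ)] heckeDiagMatrix p
    rw [← SlashAction.slash_mul, mat_zero_mul_S, SlashAction.slash_mul]
  have hsum : ∑ i ∈ (Finset.range p).erase 0, ((⇑g) ∣[(2 : ℤ)] heckeMatrix p i) ∣[(2 : ℤ)] S =
      ∑ i ∈ (Finset.range p).erase 0, (⇑g) ∣[(2 : ℤ)] heckeMatrix p i := by
    have hmem : ∀ i ∈ (Finset.range p).erase 0,
        (-((i : ZMod p))⁻¹).val ∈ (Finset.range p).erase 0 := by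
      intro i hi
      rw [Finset.mem_erase, Finset.mem_range] at hi ⊢
      refine ⟨?_, ZMod.val_lt _⟩
      rw [Ne, ZMod.val_eq_zero, neg_eq_zero, inv_eq_zero, ZMod.natCast_eq_zero_iff]
      exact fun hd => hi.1 (Nat.eq_zero_of_dvd_of_lt hd hi.2)
    have hinv : ∀ i ∈ (Finset.range p).erase 0,
        (-(((-((i : ZMod p))⁻¹).val : ℕ) : ZMod p)⁻¹).val = i := by
      intro i hi
      rw [ZMod.natCast_zmod_val, inv_neg, inv_inv, neg_neg,
        ZMod.val_cast_of_lt (Finset.mem_range.1 (Finset.mem_of_mem_erase hi))]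
    refine Finset.sum_nbij' (fun i => (-((i : ZMod p))⁻¹).val) (fun i => (-((i : ZMod p))⁻¹).val)
      hmem hmem hinv hinv fun i hi => ?_
    have hi0 : (i : ZMod p) ≠ 0 := by
      rw [Finset.mem_erase, Finset.mem_range] at hi
      rw [Ne, ZMod.natCast_eq_zero_iff]
      exact fun hd => hi.1 (Nat.eq_zero_of_dvd_of_lt hd hi.2)
    obtain ⟨γ, hγ, h⟩ := exists_mat_mul_S (p := p) (i := i) (i' := (-((i : ZMod p))⁻¹).val)
      (by rw [ZMod.natCast_zmod_val, mul_neg, mul_inv_cancel₀ hi0])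
    show ((⇑g) ∣[(2 : ℤ)] heckeMatrix p i) ∣[(2 : ℤ)] mapGL ℝ S = _
    rw [← SlashAction.slash_mul, h, SlashAction.slash_mul]
    congr 1
    exact invariant_of_form g γ hγ
  rw [h0, hsum]
  abel

/-- The Atkin–Lehner image of a weight two form is minus its `U`-image. -/
theorem slash_S_diag_eq [NeZero p] (hp : p.Prime) (g : ModularForm ((Gamma0 p).map (mapGL ℝ)) 2) (τ : ℍ) :
    (((⇑g) ∣[(2 : ℤ)] S) ∣[(2 : ℤ)] heckeDiagMatrix p) τ = -heckeU 2 p (⇑g) τ := by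
  set W := ((⇑g) ∣[(2 : ℤ)] S) ∣[(2 : ℤ)] heckeDiagMatrix p with hW
  have hWper : ∀ z : ℍ, W ((1 : ℝ) +ᵥ z) = W z := by
    intro z
    rw [hW, slash_heckeDiagMatrix_apply 2 (NeZero.ne p), slash_heckeDiagMatrix_apply 2 (NeZero.ne p),
      show heckeDiagMatrix p • ((1 : ℝ) +ᵥ z) = (p : ℝ) +ᵥ heckeDiagMatrix p • z from ?_,
      slash_S_vadd (invariant_of_form g)]
    ext1
    rw [coe_vadd, coe_heckeDiagMatrix_smul (NeZero.ne p), coe_heckeDiagMatrix_smul (NeZero.ne p),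
      coe_vadd]
    push_cast
    ring
  have hUg : ∀ z : ℍ, heckeU 2 p (⇑g) ((1 : ℝ) +ᵥ z) = heckeU 2 p (⇑g) z := fun z =>
    perH_one_of_form (ModularForm.heckeULin 2 (dvd_refl p) g) z
  have hshift : ∀ {F : ℍ → ℂ}, (∀ z : ℍ, F ((1 : ℝ) +ᵥ z) = F z) → ∀ (j : ℕ) (z : ℍ),
      F ((j : ℝ) +ᵥ z) = F z := fun h j =>
    (Fermat.Agent.ModFun.PerH.of_one (by simpa [Fermat.Agent.ModFun.PerH] using h) j)
  have key := congrFun (trace_two_eq_zero hp (ModularForm.heckeULin 2 (dvd_refl p) g)) τ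
  simp only [Pi.add_apply, Finset.sum_apply, slash_stPow_apply, ModularForm.coe_heckeULin_apply,
    heckeU_slash_S hp g, Pi.sub_apply, ← hW, hshift hWper, hshift hUg, Pi.zero_apply,
    Finset.sum_sub_distrib, Finset.sum_const, Finset.card_univ, Fintype.card_fin,
    nsmul_eq_mul] at key
  have hB : ∑ j : Fin p, ((⇑g) ∣[(2 : ℤ)] heckeMatrix p 0) (((j : ℕ) : ℝ) +ᵥ τ) =
      heckeU 2 p (⇑g) τ := by
    rw [heckeU_def, Finset.sum_apply, ← Fin.sum_univ_eq_sum_range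
      (fun j => ((⇑g) ∣[(2 : ℤ)] heckeMatrix p j) τ)]
    refine Finset.sum_congr rfl fun j _ => ?_
    rw [slash_heckeMatrix_apply 2 (NeZero.ne p), slash_heckeMatrix_apply 2 (NeZero.ne p)]
    congr 2
    ext1
    rw [coe_heckeMatrix_smul (NeZero.ne p), coe_heckeMatrix_smul (NeZero.ne p), coe_vadd]
    push_cast
    ring
  rw [hB] at key
  have hp0 : (p : ℂ) ≠ 0 := by exact_mod_cast NeZero.ne p
  apply mul_left_cancel₀ hp0
  linear_combination key

/-- `g ∣ S` is `-p⁻¹ (U g)(τ / p)`. -/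
theorem slash_S_apply [NeZero p] (hp : p.Prime) (g : ModularForm ((Gamma0 p).map (mapGL ℝ)) 2) (τ : ℍ) :
    ((⇑g) ∣[(2 : ℤ)] S) τ = -(p : ℂ)⁻¹ * heckeU 2 p (⇑g) (affine 1 0 p τ) := by
  have h := slash_S_diag_eq hp g (affine 1 0 p τ)
  rw [slash_heckeDiagMatrix_apply 2 (NeZero.ne p),
    show heckeDiagMatrix p • affine 1 0 p τ = τ from ?_] at h
  · have hp0 : (p : ℂ) ≠ 0 := by exact_mod_cast NeZero.ne p
    rw [← neg_eq_iff_eq_neg.mpr h]
    norm_num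
    field_simp
  · ext1
    rw [coe_heckeDiagMatrix_smul (NeZero.ne p), coe_affine]
    have hp0 : (p : ℂ) ≠ 0 := by exact_mod_cast NeZero.ne p
    field_simp
    simp

/-- The expansion of `g ∣ S` in the parameter of width `p`. -/
theorem hasExp_slash_S [NeZero p] (hp : p.Prime) (g : ModularForm ((Gamma0 p).map (mapGL ℝ)) 2) (G : PowerSeries ℂ)
    (hG : qExpansion 1 g = G) :
    HasExp p ((⇑g) ∣[(2 : ℤ)] S)
      (-(p : ℂ)⁻¹ • PowerSeries.mk fun n => G.coeff (n * p)) := by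
  have hU : HasExp 1 (heckeU 2 p ⇑g) (PowerSeries.mk fun n => G.coeff (n * p)) := by
    have h := hasExp_of_modularFormClass (h := 1) (ModularForm.heckeULin 2 (dvd_refl p) g)
      (Γ := ((Gamma0 p).map (mapGL ℝ))) (k := 2) (by rw [Nat.cast_one]; exact CongruenceSubgroup.one_mem_strictPeriods_Gamma0 p)
    rw [ModularForm.coe_heckeULin_apply, Nat.cast_one] at h
    convert! h using 1
    ext n
    have := ModularFormClass.qCoeff_heckeU g (CongruenceSubgroup.one_mem_strictPeriods_Gamma0 p)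
      hp.ne_zero n
    simp only [ModularFormClass.qCoeff, ModularForm.coeffHeckeU] at this
    rw [PowerSeries.coeff_mk, ← hG, this]
  have h := (hU.comp_affine 1 p).smul (-(p : ℂ)⁻¹)
  rw [PowerSeries.expand_one_apply] at h
  convert! h using 1
  funext τ
  exact slash_S_apply hp g τ

end Fermat.Agent.HeckeDuality
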