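import Fermat.Agent.HeckeDuality.NoConstant

/-!
# The three obstructions to a weight two form on `Γ₀(p)` congruent to a constant
-/

set_option autoImplicit false

noncomputable section

open UpperHalfPlane hiding I
open Matrix.SpecialLinearGroup (mapGL)
open CongruenceSubgroup ModularGroup ModularForm
open scoped MatrixGroups ModularForm Manifold ArithmeticFunction.sigma

namespace Fermat.Agent.HeckeDuality

variable {p : ℕ}

local notation "ι" => PowerSeries.map (Int.castRingHom ℂ)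

/-- The coefficient series `n ↦ a (n p)`. -/
def decimate (p : ℕ) (G : PowerSeries ℤ) : PowerSeries ℤ :=
  PowerSeries.mk fun n => G.coeff (n * p)

theorem decimate_C_add (p : ℕ) [NeZero p] (c d : ℤ) (G : PowerSeries ℤ) :
    decimate p (PowerSeries.C c + PowerSeries.C d * G) =
      PowerSeries.C c + PowerSeries.C d * decimate p G := by
  ext n
  rw [decimate, decimate, PowerSeries.coeff_mk, map_add, map_add, PowerSeries.coeff_C_mul,
    PowerSeries.coeff_C_mul, PowerSeries.coeff_C, PowerSeries.coeff_C, PowerSeries.coeff_mk]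
  simp [NeZero.ne p]

theorem expand_C_int (p : ℕ) (hp : p ≠ 0) (c : ℤ) :
    PowerSeries.expand p hp (PowerSeries.C c) = PowerSeries.C c :=
  PowerSeries.expand_C p hp c

theorem ι_expand (p : ℕ) (hp : p ≠ 0) (P : PowerSeries ℤ) :
    ι (PowerSeries.expand p hp P) = PowerSeries.expand p hp (ι P) :=
  PowerSeries.map_expand p hp _ P

theorem smul_eq_C (c : ℂ) (P : PowerSeries ℂ) : c • P = PowerSeries.C c * P :=
  PowerSeries.smul_eq_C_mul P c

/-- Expansions of `p • g` at the two cusps. -/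
theorem hasExp_smul_p (hp : p.Prime) [NeZero p]
    (g : ModularForm ((Gamma0 p).map (mapGL ℝ)) 2) (G : PowerSeries ℤ)
    (hG : qExpansion 1 g = ι G) :
    HasExp 1 ((p : ℂ) • ⇑g) (ι (PowerSeries.C (p : ℤ) * G)) ∧
      HasExp p (((p : ℂ) • ⇑g) ∣[(2 : ℤ)] S) (ι (-decimate p G)) := by
  constructor
  · have h := hasExp_of_modularFormClass (h := 1) g (Γ := (Gamma0 p).map (mapGL ℝ)) (k := 2)
      (by rw [Nat.cast_one]; exact CongruenceSubgroup.one_mem_strictPeriods_Gamma0 p)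
    rw [Nat.cast_one, hG] at h
    convert! h.smul (p : ℂ) using 1
    rw [map_mul, smul_eq_C, PowerSeries.map_C]
    simp
  · have h := (hasExp_slash_S hp g (ι G) hG).smul (p : ℂ)
    rw [ModularForm.SL_smul_slash]
    convert! h using 1
    rw [smul_smul, mul_neg, mul_inv_cancel₀ (by exact_mod_cast hp.ne_zero), neg_one_smul, map_neg]
    ext n
    simp [decimate]

theorem mul_slash_weight (γ : SL(2, ℤ)) (x y : ℍ → ℂ) (i j n : ℤ) (hn : n = i + j) :
    (x * y) ∣[n] γ = (x ∣[i] γ) * (y ∣[j] γ) := by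
  subst hn; exact ModularForm.mul_slash_SL2 i j γ x y

theorem smul_level_one_slash {a : ℤ} (M : ModularForm 𝒮ℒ a) (γ : SL(2, ℤ)) :
    (⇑M) ∣[a] γ = ⇑M :=
  SlashInvariantFormClass.slash_action_eq M _ ⟨γ, rfl⟩

theorem hasExp_levelOne {a : ℤ} (M : ModularForm 𝒮ℒ a) (P : PowerSeries ℤ)
    (hM : qExpansion 1 M = ι P) : HasExp 1 (⇑M) (ι P) := by
  have h := hasExp_of_modularFormClass (h := 1) M (Γ := 𝒮ℒ) (k := a)
    (by rw [Nat.cast_one]; exact one_mem_strictPeriods_SL)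
  rwa [Nat.cast_one, hM] at h

/-- Case A: a form congruent to a constant `c` prime to `ℓ` modulo `ℓ ^ (r + 1)`. -/
theorem false_of_const_caseA (hp : p.Prime) {ℓ : ℕ} (hℓ : ℓ.Prime) (r : ℕ)
    (g : ModularForm ((Gamma0 p).map (mapGL ℝ)) 2) (G : PowerSeries ℤ) (c : ℤ)
    (hG : qExpansion 1 g = ι (PowerSeries.C c + PowerSeries.C ((ℓ : ℤ) ^ (r + 1)) * G))
    (hc : ¬ (ℓ : ℤ) ∣ c) (e : ℤ) (he : (p : ℤ) + 1 = (ℓ : ℤ) ^ r * e)
    (a : ℕ) (ha : (a + 2) * (p + 1) < 12 * p)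
    (M : ModularForm 𝒮ℒ (a : ℤ)) (L : ModularForm 𝒮ℒ ((a + 2 : ℕ) : ℤ))
    (Ms Ds : PowerSeries ℤ) (hM : qExpansion 1 M = ι Ms)
    (hL : qExpansion 1 L = ι (Ms + PowerSeries.C ((ℓ : ℤ) ^ r) * Ds))
    (hMs : PowerSeries.constantCoeff Ms = 1) (hDs0 : PowerSeries.constantCoeff Ds = 0)
    (hDs1 : ¬ (ℓ : ℤ) ∣ Ds.coeff 1) : False := by
  have : NeZero p := ⟨hp.ne_zero⟩
  set Lr : ℂ := (ℓ : ℂ) ^ r with hLr
  have hLr0 : Lr ≠ 0 := pow_ne_zero _ (by exact_mod_cast hℓ.ne_zero)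
  set F : ℍ → ℂ := Lr⁻¹ • (((p : ℂ) • ⇑g) * ⇑M + (c : ℂ) • ⇑L) with hF
  obtain ⟨hg1, hg2⟩ := hasExp_smul_p hp g _ hG
  have hM1 := hasExp_levelOne M Ms hM
  have hL1 := hasExp_levelOne L _ hL
  set A : PowerSeries ℤ := PowerSeries.C ((p : ℤ) * ℓ) * G * Ms +
    PowerSeries.C c * (PowerSeries.C e * Ms + Ds) with hAdef
  set B : PowerSeries ℤ := -(PowerSeries.C (ℓ : ℤ) * decimate p G *
      PowerSeries.expand p (NeZero.ne p) Ms) +
    PowerSeries.C c * PowerSeries.expand p (NeZero.ne p) Ds with hBdef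
  have hA : HasExp 1 F (ι A) := by
    have h := ((hg1.mul hM1).add (hL1.smul (c : ℂ))).smul Lr⁻¹
    convert! h using 1
    have key : PowerSeries.C ((p : ℤ)) * (PowerSeries.C c + PowerSeries.C ((ℓ : ℤ) ^ (r + 1)) * G)
        * Ms + PowerSeries.C c * (Ms + PowerSeries.C ((ℓ : ℤ) ^ r) * Ds) =
        PowerSeries.C ((ℓ : ℤ) ^ r) * A := by
      have he' : PowerSeries.C ((p : ℤ)) + 1 =
          PowerSeries.C ((ℓ : ℤ) ^ r) * PowerSeries.C e := by
        rw [← map_mul, ← he, map_add, map_one]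
      rw [hAdef, pow_succ, map_mul, map_mul]
      linear_combination (PowerSeries.C c * Ms) * he'
    rw [← map_mul, smul_eq_C, smul_eq_C,
      show PowerSeries.C (c : ℂ) = ι (PowerSeries.C c) by simp, ← map_mul (ι), ← map_add, key,
      map_mul, PowerSeries.map_C, ← mul_assoc, ← map_mul]
    simp [hLr, hℓ.ne_zero]
  have hslash : F ∣[((a + 2 : ℕ) : ℤ)] S =
      Lr⁻¹ • ((((p : ℂ) • ⇑g) ∣[(2 : ℤ)] S) * ⇑M + (c : ℂ) • ⇑L) := by
    rw [hF, ModularForm.SL_smul_slash, SlashAction.add_slash, ModularForm.SL_smul_slash,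
      smul_level_one_slash,
      mul_slash_weight S _ _ 2 (a : ℤ) ((a + 2 : ℕ) : ℤ) (by push_cast; ring),
      smul_level_one_slash]
  have hB : HasExp p (F ∣[((a + 2 : ℕ) : ℤ)] S) (ι B) := by
    rw [hslash]
    have h := ((hg2.mul (hM1.widen p)).add ((hL1.widen p).smul (c : ℂ))).smul Lr⁻¹
    convert! h using 1
    have key : -decimate p (PowerSeries.C c + PowerSeries.C ((ℓ : ℤ) ^ (r + 1)) * G) *
        PowerSeries.expand p (NeZero.ne p) Ms + PowerSeries.C c *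
        PowerSeries.expand p (NeZero.ne p) (Ms + PowerSeries.C ((ℓ : ℤ) ^ r) * Ds) =
        PowerSeries.C ((ℓ : ℤ) ^ r) * B := by
      rw [decimate_C_add, map_add, map_mul (PowerSeries.expand p (NeZero.ne p)), expand_C_int,
        hBdef, pow_succ, map_mul]
      ring
    rw [← ι_expand, ← ι_expand, ← map_mul, smul_eq_C, smul_eq_C,
      show PowerSeries.C (c : ℂ) = ι (PowerSeries.C c) by simp, ← map_mul (ι), ← map_add, key,
      map_mul, PowerSeries.map_C, ← mul_assoc, ← map_mul]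
    simp [hLr, hℓ.ne_zero]
  have hinv : ∀ γ ∈ Gamma0 p, F ∣[((a + 2 : ℕ) : ℤ)] γ = F := by
    intro γ hγ
    rw [hF, ModularForm.SL_smul_slash, SlashAction.add_slash, ModularForm.SL_smul_slash,
      smul_level_one_slash,
      mul_slash_weight γ _ _ 2 (a : ℤ) ((a + 2 : ℕ) : ℤ) (by push_cast; ring),
      smul_level_one_slash, ModularForm.SL_smul_slash,
      invariant_of_form g γ hγ]
  let f := mkGammaZero hp ((a + 2 : ℕ) : ℤ) F hinv hA.mdiff hA.bounded hB.bounded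
  have : Fact ℓ.Prime := ⟨hℓ⟩
  have hcz : ((c : ℤ) : ZMod ℓ) ≠ 0 := by
    rwa [Ne, ZMod.intCast_zmod_eq_zero_iff_dvd]
  have hAmap : A.map (Int.castRingHom (ZMod ℓ)) = PowerSeries.C (c : ZMod ℓ) *
      (PowerSeries.C (e : ZMod ℓ) * Ms.map (Int.castRingHom (ZMod ℓ))
        + Ds.map (Int.castRingHom (ZMod ℓ))) := by
    rw [hAdef]
    simp only [map_add, map_mul, PowerSeries.map_C, eq_intCast (Int.castRingHom (ZMod ℓ)), Int.cast_natCast,
      ZMod.natCast_self, mul_zero, map_zero, zero_mul, zero_add]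
  have hBmap : B.map (Int.castRingHom (ZMod ℓ)) = PowerSeries.C (c : ZMod ℓ) *
      PowerSeries.expand p (NeZero.ne p) (Ds.map (Int.castRingHom (ZMod ℓ))) := by
    rw [hBdef]
    simp only [map_add, map_neg, map_mul, PowerSeries.map_C, eq_intCast (Int.castRingHom (ZMod ℓ)),
      Int.cast_natCast,
      ZMod.natCast_self, map_zero, zero_mul, neg_zero, zero_add, PowerSeries.map_expand]
  have hD1 : ((Ds.coeff 1 : ℤ) : ZMod ℓ) ≠ 0 := by
    rwa [Ne, ZMod.intCast_zmod_eq_zero_iff_dvd]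
  refine false_of_sheets hp hℓ (a + 2) ha f A B hA hB (fun h => ?_) (fun h => ?_) (fun n hn => ?_)
  · rw [hAmap] at h
    have h0 := congrArg (fun Z : PowerSeries (ZMod ℓ) => Z.coeff 0) h
    have h1 := congrArg (fun Z : PowerSeries (ZMod ℓ) => Z.coeff 1) h
    simp only [PowerSeries.coeff_C_mul, map_add, map_zero, PowerSeries.coeff_map,
      PowerSeries.coeff_zero_eq_constantCoeff_apply, hMs, hDs0, map_one, mul_one, add_zero,
      mul_eq_zero, hcz, false_or] at h0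
    simp only [PowerSeries.coeff_C_mul, map_zero, PowerSeries.coeff_map, eq_intCast,
      h0, zero_mul, zero_add, mul_eq_zero, hcz, false_or] at h1
    exact hD1 h1
  · rw [hBmap] at h
    have h1 := congrArg (fun Z : PowerSeries (ZMod ℓ) => Z.coeff (p * 1)) h
    simp only [PowerSeries.coeff_C_mul, PowerSeries.coeff_expand_mul, map_zero,
      PowerSeries.coeff_map, eq_intCast, mul_eq_zero, hcz, false_or] at h1
    exact hD1 h1
  · rw [hBdef, map_add, map_neg, mul_assoc, PowerSeries.coeff_C_mul, PowerSeries.coeff_C_mul]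
    refine dvd_add (dvd_neg.2 (dvd_mul_right _ _)) ?_
    rcases Nat.eq_zero_or_pos n with rfl | hn0
    · simp [hDs0]
    · rw [PowerSeries.coeff_expand_of_not_dvd p (NeZero.ne p) Ds
        (Nat.not_dvd_of_pos_of_lt hn0 hn), mul_zero]
      exact dvd_zero _

/-- The integral identity behind case B. -/
theorem caseB_identity {R : Type*} [CommRing R] (u X a b C₁ H : R) (h : 45 * a + 63 * b = 4 * C₁) :
    (H = -u + 8 * X →
      H ^ 4 - 6 * u ^ 2 * (1 + 240 * a) * H ^ 2 - 8 * u ^ 3 * (1 - 504 * b) * H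
          - 3 * u ^ 4 * (1 + 240 * a) ^ 2 =
        256 * (-(u ^ 4 * (C₁ + 675 * a ^ 2)) + 2 * (45 * u ^ 3 * a * X - 180 * u ^ 2 * a * X ^ 2
          + 63 * u ^ 3 * b * X - 4 * u * X ^ 3 + 8 * X ^ 4))) ∧
    (H = 3 * u + 8 * X →
      H ^ 4 - 6 * u ^ 2 * (1 + 240 * a) * H ^ 2 - 8 * u ^ 3 * (1 - 504 * b) * H
          - 3 * u ^ 4 * (1 + 240 * a) ^ 2 =
        256 * (u ^ 4 * (3 * C₁ - 90 * a - 675 * a ^ 2) + 2 * (X * (u + 2 * X) ^ 3
          - 135 * u ^ 3 * a * X + 63 * u ^ 3 * b * X - 180 * u ^ 2 * a * X ^ 2))) := by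
  constructor <;> intro hH <;> subst hH
  · linear_combination (-64 * u ^ 4) * h
  · linear_combination (192 * u ^ 4) * h

theorem exists_caseB_series :
    ∃ C₁ : PowerSeries ℤ, 45 * sigmaSeries 3 + 63 * sigmaSeries 5 = 4 * C₁ ∧
      PowerSeries.constantCoeff C₁ = 0 ∧ C₁.coeff 1 = 27 := by
  have hd : ∀ d : ℕ, (4 : ℤ) ∣ 45 * (d : ℤ) ^ 3 + 63 * (d : ℤ) ^ 5 := by
    intro d
    have h : ∀ x : ZMod 4, 45 * x ^ 3 + 63 * x ^ 5 = 0 := by decide
    rw [show (4 : ℤ) = ((4 : ℕ) : ℤ) by rfl, ← ZMod.intCast_zmod_eq_zero_iff_dvd]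
    push_cast
    exact h _
  have hn : ∀ n, (4 : ℤ) ∣ 45 * (σ 3 n : ℤ) + 63 * (σ 5 n : ℤ) := by
    intro n
    rw [ArithmeticFunction.sigma_apply, ArithmeticFunction.sigma_apply]
    push_cast
    rw [Finset.mul_sum, Finset.mul_sum, ← Finset.sum_add_distrib]
    exact Finset.dvd_sum fun d _ => hd d
  choose C hC using hn
  refine ⟨PowerSeries.mk C, ?_, ?_, ?_⟩
  · ext n
    rw [show (45 : PowerSeries ℤ) = PowerSeries.C 45 from rfl,
      show (63 : PowerSeries ℤ) = PowerSeries.C 63 from rfl,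
      show (4 : PowerSeries ℤ) = PowerSeries.C 4 from rfl, map_add, PowerSeries.coeff_C_mul,
      PowerSeries.coeff_C_mul, PowerSeries.coeff_C_mul, PowerSeries.coeff_mk, sigmaSeries,
      sigmaSeries, PowerSeries.coeff_mk, PowerSeries.coeff_mk, hC n]
  · rw [← PowerSeries.coeff_zero_eq_constantCoeff_apply, PowerSeries.coeff_mk]
    have h := hC 0
    simp at h
    omega
  · rw [PowerSeries.coeff_mk]
    have h := hC 1
    simp at h
    omega

/-- Case B: at `ℓ = 2`, `p ≡ 3 (mod 4)`: a form congruent to an odd constant modulo `8`. -/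
theorem false_of_const_caseB (hp : p.Prime) (hp5 : 5 ≤ p) (hp4 : p % 4 = 3)
    (g : ModularForm ((Gamma0 p).map (mapGL ℝ)) 2) (G : PowerSeries ℤ) (c : ℤ) (hc : Odd c)
    (hG : qExpansion 1 g = ι (PowerSeries.C c + PowerSeries.C 8 * G)) : False := by
  have : NeZero p := ⟨hp.ne_zero⟩
  have : Fact (Nat.Prime 2) := ⟨Nat.prime_two⟩
  obtain ⟨C₁, hC₁, hC₁0, hC₁1⟩ := exists_caseB_series
  obtain ⟨hg1, hg2⟩ := hasExp_smul_p hp g _ hG
  have h4 := hasExp_levelOne E₄ eisFour qExp_eisFour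
  have h6 := hasExp_levelOne E₆ eisSix qExp_eisSix
  set H : ℍ → ℂ := (p : ℂ) • ⇑g with hH
  set F : ℍ → ℂ := (256 : ℂ)⁻¹ • (H * H * (H * H) - (6 * (c : ℂ) ^ 2) • (⇑E₄ * (H * H))
    - (8 * (c : ℂ) ^ 3) • (⇑E₆ * H) - (3 * (c : ℂ) ^ 4) • (⇑E₄ * ⇑E₄)) with hF
  have hm : ∀ (γ : SL(2, ℤ)) (x y : ℍ → ℂ) (i j n : ℤ), n = i + j →
      (x * y) ∣[n] γ = (x ∣[i] γ) * (y ∣[j] γ) := fun γ x y i j n hn => by
    subst hn; exact ModularForm.mul_slash_SL2 i j γ x y
  have hsl : ∀ γ : SL(2, ℤ), F ∣[((8 : ℕ) : ℤ)] γ = (256 : ℂ)⁻¹ •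
      ((H ∣[(2 : ℤ)] γ) * (H ∣[(2 : ℤ)] γ) * ((H ∣[(2 : ℤ)] γ) * (H ∣[(2 : ℤ)] γ))
      - (6 * (c : ℂ) ^ 2) • (⇑E₄ * ((H ∣[(2 : ℤ)] γ) * (H ∣[(2 : ℤ)] γ)))
      - (8 * (c : ℂ) ^ 3) • (⇑E₆ * (H ∣[(2 : ℤ)] γ))
      - (3 * (c : ℂ) ^ 4) • (⇑E₄ * ⇑E₄)) := by
    intro γ
    rw [hF, ModularForm.SL_smul_slash]
    simp only [sub_eq_add_neg, SlashAction.add_slash, SlashAction.neg_slash,
      ModularForm.SL_smul_slash]
    rw [hm γ (H * H) (H * H) 4 4 ((8 : ℕ) : ℤ) (by norm_num),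
      hm γ (⇑E₄) (H * H) 4 4 ((8 : ℕ) : ℤ) (by norm_num),
      hm γ (⇑E₆) H 6 2 ((8 : ℕ) : ℤ) (by norm_num),
      hm γ (⇑E₄) (⇑E₄) 4 4 ((8 : ℕ) : ℤ) (by norm_num), hm γ H H 2 2 4 (by norm_num)]
    rw [smul_level_one_slash, smul_level_one_slash]
  set Xs : PowerSeries ℤ := -decimate p G with hXs
  set e4 := PowerSeries.expand p (NeZero.ne p) (sigmaSeries 3) with he4
  set e6 := PowerSeries.expand p (NeZero.ne p) (sigmaSeries 5) with he6
  set eC := PowerSeries.expand p (NeZero.ne p) C₁ with heC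
  set u : PowerSeries ℤ := PowerSeries.C c with hu
  set B : PowerSeries ℤ := -(u ^ 4 * (eC + 675 * e4 ^ 2)) + 2 * (45 * u ^ 3 * e4 * Xs
    - 180 * u ^ 2 * e4 * Xs ^ 2 + 63 * u ^ 3 * e6 * Xs - 4 * u * Xs ^ 3 + 8 * Xs ^ 4) with hBdef
  have hofNat : ∀ (n : ℕ) [n.AtLeastTwo],
      ι (OfNat.ofNat n : PowerSeries ℤ) = (OfNat.ofNat n : PowerSeries ℂ) :=
    fun n _ => map_ofNat _ n
  have hιu : ι u = PowerSeries.C (c : ℂ) := by simp [hu]
  have hE : ∀ (Y : PowerSeries ℤ) (a₄ a₆ : PowerSeries ℤ) (Z : PowerSeries ℤ),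
      Y * Y * (Y * Y) - (6 * u ^ 2) * (a₄ * (Y * Y)) - (8 * u ^ 3) * (a₆ * Y)
        - (3 * u ^ 4) * (a₄ * a₄) = 256 * Z →
      (256 : ℂ)⁻¹ • (ι Y * ι Y * (ι Y * ι Y) - (6 * (c : ℂ) ^ 2) • (ι a₄ * (ι Y * ι Y))
        - (8 * (c : ℂ) ^ 3) • (ι a₆ * ι Y) - (3 * (c : ℂ) ^ 4) • (ι a₄ * ι a₄)) = ι Z := by
    intro Y a₄ a₆ Z hZ
    have h1 := congrArg (ι) hZ
    simp only [map_sub, map_mul, map_pow, hιu, hofNat] at h1
    simp only [smul_eq_C, map_mul, map_pow, map_ofNat]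
    rw [h1, ← mul_assoc, ← map_ofNat (PowerSeries.C (R := ℂ)) 256, ← map_mul]
    norm_num
  have hB : HasExp p (F ∣[((8 : ℕ) : ℤ)] S) (ι B) := by
    rw [hsl S]
    have hHS : HasExp p (H ∣[(2 : ℤ)] S) (ι (-u + 8 * Xs)) := by
      convert! hg2 using 2
      rw [decimate_C_add, hu, hXs, show (8 : PowerSeries ℤ) = PowerSeries.C 8 from rfl]
      ring
    have h := ((((hHS.mul hHS).mul (hHS.mul hHS)).sub
      (((h4.widen p).mul (hHS.mul hHS)).smul (6 * (c : ℂ) ^ 2))).sub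
      (((h6.widen p).mul hHS).smul (8 * (c : ℂ) ^ 3))).sub
      (((h4.widen p).mul (h4.widen p)).smul (3 * (c : ℂ) ^ 4)) |>.smul (256 : ℂ)⁻¹
    convert! h using 1
    rw [← ι_expand, ← ι_expand]
    refine (hE _ _ _ _ ?_).symm
    have h45 : 45 * e4 + 63 * e6 = 4 * eC := by
      simpa [he4, he6, heC, map_ofNat] using congrArg (PowerSeries.expand p (NeZero.ne p)) hC₁
    have hid := (caseB_identity u Xs e4 e6 eC (-u + 8 * Xs) h45).1 rfl
    rw [hBdef]
    simp only [eisFour, eisSix, map_add, map_sub, map_mul, map_one, map_ofNat, ← he4, ← he6]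
    linear_combination hid
  obtain ⟨t, e, ht, hpe⟩ : ∃ t e : ℤ, (t = -1 ∨ t = 3) ∧ (p : ℤ) = t + 8 * e := by
    rcases (show p % 8 = 3 ∨ p % 8 = 7 by omega) with h | h
    · exact ⟨3, p / 8, Or.inr rfl, by omega⟩
    · exact ⟨-1, p / 8 + 1, Or.inl rfl, by omega⟩
  set Xi : PowerSeries ℤ := PowerSeries.C (p : ℤ) * G + PowerSeries.C (e * c) with hXi
  set a4 := sigmaSeries 3 with ha4
  set a6 := sigmaSeries 5 with ha6
  obtain ⟨A, hA, hA1⟩ : ∃ A : PowerSeries ℤ, HasExp 1 F (ι A) ∧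
      A.map (Int.castRingHom (ZMod 2)) = (C₁ + a4 ^ 2).map (Int.castRingHom (ZMod 2)) := by
    have hHi : HasExp 1 H (ι (PowerSeries.C t * u + 8 * Xi)) := by
      convert! hg1 using 2
      rw [hu, hXi, hpe, show (8 : PowerSeries ℤ) = PowerSeries.C 8 from rfl]
      simp only [map_add, map_mul]
      ring
    have h := ((((hHi.mul hHi).mul (hHi.mul hHi)).sub
      ((h4.mul (hHi.mul hHi)).smul (6 * (c : ℂ) ^ 2))).sub
      ((h6.mul hHi).smul (8 * (c : ℂ) ^ 3))).sub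
      ((h4.mul h4).smul (3 * (c : ℂ) ^ 4)) |>.smul (256 : ℂ)⁻¹
    have htwo : (2 : PowerSeries (ZMod 2)) = 0 := by
      rw [← map_ofNat (PowerSeries.C (R := ZMod 2)) 2, show (OfNat.ofNat 2 : ZMod 2) = 0 from rfl,
        map_zero]
    have hodd : ∀ (n : ℕ) [n.AtLeastTwo], n % 2 = 1 →
        (OfNat.ofNat n : PowerSeries (ZMod 2)) = 1 := by
      intro n _ hn
      rw [← map_ofNat (PowerSeries.C (R := ZMod 2)) n,
        show (OfNat.ofNat n : ZMod 2) = ((n : ℕ) : ZMod 2) from (Nat.cast_ofNat).symm,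
        ← ZMod.natCast_mod, hn, Nat.cast_one, map_one]
    have hcu : u.map (Int.castRingHom (ZMod 2)) = 1 := by
      have h1 : (c : ZMod 2) = 1 := by
        obtain ⟨k, rfl⟩ := hc
        push_cast
        rw [show (2 : ZMod 2) = 0 from rfl, zero_mul, zero_add]
      rw [hu, PowerSeries.map_C, eq_intCast, h1, map_one]
    rcases ht with rfl | rfl
    · refine ⟨-(u ^ 4 * (C₁ + 675 * a4 ^ 2)) + 2 * (45 * u ^ 3 * a4 * Xi
        - 180 * u ^ 2 * a4 * Xi ^ 2 + 63 * u ^ 3 * a6 * Xi - 4 * u * Xi ^ 3 + 8 * Xi ^ 4), ?_, ?_⟩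
      · convert! h using 1
        refine (hE _ _ _ _ ?_).symm
        have hid := (caseB_identity u Xi a4 a6 C₁ (-u + 8 * Xi) hC₁).1 rfl
        simp only [eisFour, eisSix, map_neg, map_one, ← ha4, ← ha6, neg_mul, one_mul]
        linear_combination hid
      · simp only [map_add, map_neg, map_mul, map_pow, map_ofNat, hcu, htwo]
        rw [hodd 675 (by norm_num)]
        linear_combination (-(C₁.map (Int.castRingHom (ZMod 2)))
          - (a4.map (Int.castRingHom (ZMod 2))) ^ 2) * htwo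
    · refine ⟨u ^ 4 * (3 * C₁ - 90 * a4 - 675 * a4 ^ 2) + 2 * (Xi * (u + 2 * Xi) ^ 3
          - 135 * u ^ 3 * a4 * Xi + 63 * u ^ 3 * a6 * Xi - 180 * u ^ 2 * a4 * Xi ^ 2), ?_, ?_⟩
      · convert! h using 1
        refine (hE _ _ _ _ ?_).symm
        have hid := (caseB_identity u Xi a4 a6 C₁ (3 * u + 8 * Xi) hC₁).2 rfl
        simp only [eisFour, eisSix, map_ofNat, ← ha4, ← ha6]
        linear_combination hid
      · simp only [map_add, map_sub, map_mul, map_pow, map_ofNat, hcu, htwo]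
        rw [hodd 675 (by norm_num), hodd 3 (by norm_num)]
        linear_combination (-45 * a4.map (Int.castRingHom (ZMod 2))
          - (a4.map (Int.castRingHom (ZMod 2))) ^ 2) * htwo
  have hinv : ∀ γ ∈ Gamma0 p, F ∣[((8 : ℕ) : ℤ)] γ = F := by
    intro γ hγ
    rw [hsl γ, hH, ModularForm.SL_smul_slash, invariant_of_form g γ hγ]
  let f := mkGammaZero hp ((8 : ℕ) : ℤ) F hinv hA.mdiff hA.bounded hB.bounded
  have hsq : (a4 ^ 2).coeff 1 = 0 := by
    rw [sq, PowerSeries.coeff_mul]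
    refine Finset.sum_eq_zero fun x hx => ?_
    rw [Finset.HasAntidiagonal.mem_antidiagonal] at hx
    rcases (show x.1 = 0 ∨ x.2 = 0 by omega) with h | h <;>
      simp [h, ha4, constantCoeff_sigmaSeries]
  have hBmap : B.map (Int.castRingHom (ZMod 2)) =
      PowerSeries.expand p (NeZero.ne p) ((C₁ + a4 ^ 2).map (Int.castRingHom (ZMod 2))) := by
    rw [← PowerSeries.map_expand, hBdef, map_add (PowerSeries.expand p (NeZero.ne p)), map_pow,
      ← heC, ← he4]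
    have htwo : (2 : PowerSeries (ZMod 2)) = 0 := by
      rw [← map_ofNat (PowerSeries.C (R := ZMod 2)) 2, show (OfNat.ofNat 2 : ZMod 2) = 0 from rfl,
        map_zero]
    have hcu : u.map (Int.castRingHom (ZMod 2)) = 1 := by
      have h1 : (c : ZMod 2) = 1 := by
        obtain ⟨k, rfl⟩ := hc
        push_cast
        rw [show (2 : ZMod 2) = 0 from rfl, zero_mul, zero_add]
      rw [hu, PowerSeries.map_C, eq_intCast, h1, map_one]
    simp only [map_add, map_neg, map_mul, map_pow, map_ofNat, hcu, htwo]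
    linear_combination (-(eC.map (Int.castRingHom (ZMod 2)))
      - 338 * (e4.map (Int.castRingHom (ZMod 2))) ^ 2) * htwo
  refine false_of_sheets hp Nat.prime_two 8 (by omega) f A B hA hB (fun h => ?_) (fun h => ?_)
    (fun n hn => ?_)
  · rw [hA1] at h
    have h1 := congrArg (fun Z : PowerSeries (ZMod 2) => Z.coeff 1) h
    simp only [PowerSeries.coeff_map, map_add, hC₁1, hsq, map_zero] at h1
    have h2 : ((27 : ℤ) : ZMod 2) = 0 := by simpa using h1
    rw [ZMod.intCast_zmod_eq_zero_iff_dvd] at h2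
    omega
  · rw [hBmap] at h
    have h1 := congrArg (fun Z : PowerSeries (ZMod 2) => Z.coeff (p * 1)) h
    simp only [PowerSeries.coeff_expand_mul, PowerSeries.coeff_map, map_add, hC₁1, hsq,
      map_zero] at h1
    have h2 : ((27 : ℤ) : ZMod 2) = 0 := by simpa using h1
    rw [ZMod.intCast_zmod_eq_zero_iff_dvd] at h2
    omega
  · have h1 : (B.map (Int.castRingHom (ZMod 2))).coeff n = 0 := by
      rw [hBmap]
      rcases Nat.eq_zero_or_pos n with rfl | hn0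
      · rw [show (0 : ℕ) = p * 0 by simp, PowerSeries.coeff_expand_mul,
          PowerSeries.coeff_map, map_add, PowerSeries.coeff_zero_eq_constantCoeff_apply,
          PowerSeries.coeff_zero_eq_constantCoeff_apply, map_pow, hC₁0, ha4,
          constantCoeff_sigmaSeries]
        simp
      · exact PowerSeries.coeff_expand_of_not_dvd p (NeZero.ne p) _
          (Nat.not_dvd_of_pos_of_lt hn0 hn)
    rwa [PowerSeries.coeff_map, eq_intCast, ZMod.intCast_zmod_eq_zero_iff_dvd] at h1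

end Fermat.Agent.HeckeDuality
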