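import Fermat.Agent.HeckeDuality.Eigenform
import Fermat.Prelude.Def_CuspForm_IntegralLattice
import Fermat.Prelude.Def_FormalHecke_Eigensystem

/-!
# The Deligne–Serre lifting lemma in weight two
-/

set_option autoImplicit false

noncomputable section

namespace Fermat.Agent.HeckeDuality

open CongruenceSubgroup ModularFormClass UpperHalfPlane EisensteinWeightOne

variable {N : ℕ} [NeZero N]

local notation "𝕋" => CuspForm.heckeAlgebra N 2 ∅

omit [NeZero N] in
theorem hasIntegralStructure_of_hasIntegralBasis (h : CuspForm.HasIntegralBasis N) :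
    CuspForm.HasIntegralStructure N 2 := by
  refine top_le_iff.1 (h ▸ Submodule.span_mono fun f hf => ?_)
  refine (mem_intLattice_iff f).2 fun n => ?_
  obtain ⟨m, hm⟩ := Subring.mem_bot.1 (hf n)
  exact ⟨m, hm.symm⟩

/-- Lifting a congruence eigen-character: a ring homomorphism from the Hecke algebra to a field of
positive characteristic is congruent to a normalised eigenform. -/
theorem exists_eigenform_lifting (h : CuspForm.HasIntegralStructure N 2) {F : Type} [Field F]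
    [Finite F] {p : ℕ} [CharP F p] (χ : ↥(CuspForm.heckeAlgebra N 2 ∅) →+* F) :
    ∃ (f : CuspForm (Gamma0 N) 2) (_ : f.IsNormalizedEigenform)
      (𝔪' : Ideal (integralClosure ℤ ℂ)), 𝔪'.IsMaximal ∧
      ((p : ℕ) : integralClosure ℤ ℂ) ∈ 𝔪' ∧
      ∀ ℓ (hℓ : ℓ.Prime) (a : ℤ), χ (heckeOp N 2 ℓ hℓ) = a →
        ∃ c : integralClosure ℤ ℂ, (c : ℂ) = qCoeff f ℓ ∧
          c - (a : integralClosure ℤ ℂ) ∈ 𝔪' := by
  have hfin := heckeAlgebra_finite_of_integralStructure ∅ h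
  have hkmax : (RingHom.ker χ).IsMaximal := by
    have : IsField χ.range := Finite.isField_of_domain _
    exact Ideal.Quotient.maximal_of_isField _
      (MulEquiv.isField this χ.quotientKerEquivRange.toMulEquiv)
  obtain ⟨𝔭, hmin, hle⟩ := Ideal.exists_minimalPrimes_le (bot_le : ⊥ ≤ RingHom.ker χ)
  obtain ⟨f, θ, hnorm, hker, hcoeff⟩ := exists_eigenform_of_minimalPrime h 𝔭 hmin
  have hpr : 𝔭.IsPrime := hmin.1.1
  -- the kernel of `θ` meets `ℤ` in zero, so equals the minimal prime `𝔭`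
  have hzero : 𝔭.comap (algebraMap ℤ 𝕋) = ⊥ := by
    refine eq_bot_iff.2 fun m hm => ?_
    have := hker (Ideal.mem_comap.1 hm)
    rw [RingHom.mem_ker, eq_intCast (algebraMap ℤ 𝕋), map_intCast] at this
    simpa using this
  have hkerθ : RingHom.ker θ = 𝔭 := by
    refine le_antisymm (fun t ht => ?_) hker
    by_contra hnot
    let q : 𝕋 →+* 𝕋 ⧸ 𝔭 := Ideal.Quotient.mk 𝔭
    have hbot : (RingHom.ker θ).map q = ⊥ := by
      have : Algebra.IsIntegral ℤ (𝕋 ⧸ 𝔭) := Algebra.IsIntegral.of_finite ℤ _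
      apply Ideal.eq_bot_of_comap_eq_bot (R := ℤ)
      refine eq_bot_iff.2 fun m hm => ?_
      rw [Ideal.mem_comap, eq_intCast (algebraMap ℤ (𝕋 ⧸ 𝔭)), ← map_intCast q m,
        ← Ideal.mem_comap, Ideal.comap_map_of_surjective' _ Ideal.Quotient.mk_surjective,
        Ideal.mk_ker, sup_eq_left.2 hker, RingHom.mem_ker, map_intCast] at hm
      simpa using hm
    have := Ideal.mem_map_of_mem q ht
    rw [hbot, Submodule.mem_bot, Ideal.Quotient.eq_zero_iff_mem] at this
    exact hnot this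
  -- the eigencharacter lands in the algebraic integers
  have hint : ∀ t : 𝕋, θ t ∈ integralClosure ℤ ℂ := fun t =>
    (Algebra.IsIntegral.isIntegral (R := ℤ) t).map θ.toIntAlgHom
  let μ : 𝕋 →+* integralClosure ℤ ℂ := θ.codRestrict (integralClosure ℤ ℂ).toSubring hint
  let : Algebra 𝕋 (integralClosure ℤ ℂ) := μ.toAlgebra
  have : IsScalarTower ℤ 𝕋 (integralClosure ℤ ℂ) := IsScalarTower.of_algebraMap_eq fun m => by
    simp [eq_intCast]
  have : Algebra.IsIntegral 𝕋 (integralClosure ℤ ℂ) :=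
    ⟨fun x => (Algebra.IsIntegral.isIntegral (R := ℤ) x).tower_top⟩
  have hkerμ : RingHom.ker (algebraMap 𝕋 (integralClosure ℤ ℂ)) ≤ RingHom.ker χ := by
    refine le_trans ?_ hle
    intro t ht
    rw [← hkerθ, RingHom.mem_ker]
    exact congrArg Subtype.val (RingHom.mem_ker.1 ht)
  obtain ⟨Q, hQmax, hQ⟩ := Ideal.exists_ideal_over_maximal_of_isIntegral (RingHom.ker χ) hkerμ
  refine ⟨f, hnorm, Q, hQmax, ?_, fun ℓ hℓ a ha => ?_⟩
  · have hmem : ((p : ℕ) : 𝕋) ∈ RingHom.ker χ := by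
      rw [RingHom.mem_ker, map_natCast, CharP.cast_eq_zero]
    rw [← hQ, Ideal.mem_comap, map_natCast] at hmem
    exact hmem
  · refine ⟨μ (heckeOp N 2 ℓ hℓ), (hcoeff ℓ hℓ).symm, ?_⟩
    have hmem : heckeOp N 2 ℓ hℓ - (a : 𝕋) ∈ RingHom.ker χ := by
      rw [RingHom.mem_ker, map_sub, map_intCast, ha, sub_self]
    rw [← hQ, Ideal.mem_comap, map_sub, map_intCast] at hmem
    exact hmem

theorem coeff_e1Chi3In (n : ℕ) :
    (3 : ℤ) ∣ (e1Chi3In ℤ).coeff n - if n = 0 then 1 else 0 := by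
  rw [e1Chi3In, PowerSeries.coeff_map, e1Chi3, PowerSeries.coeff_mk, eq_intCast, Int.cast_id]
  split_ifs
  · simp
  · exact ⟨2 * sigmaChi n, by ring⟩

theorem bridgeProduct_congr (a : ℕ → ℤ) (n : ℕ) :
    (3 : ℤ) ∣ (bridgeProduct a).coeff n - a n := by
  rw [bridgeProduct, PowerSeries.coeff_mul]
  have hn : a n = ∑ x ∈ Finset.HasAntidiagonal.antidiagonal n, a x.1 * (if x.2 = 0 then 1 else 0) := by
    rw [Finset.sum_eq_single (n, 0)]
    · simp
    · rintro ⟨i, j⟩ hij hne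
      rw [Finset.HasAntidiagonal.mem_antidiagonal] at hij
      have : j ≠ 0 := fun h => hne (by subst h; simp at hij; subst hij; rfl)
      simp [this]
    · simp
  rw [hn, ← Finset.sum_sub_distrib]
  refine Finset.dvd_sum fun x _ => ?_
  rw [PowerSeries.coeff_mk, ← mul_sub]
  exact (coeff_e1Chi3In x.2).mul_left _

theorem chiNegThree_congr (l : ℕ) : (3 : ℤ) ∣ (l : ℤ) - chiNegThree l := by
  rw [chiNegThree]
  split_ifs <;> omega

/-- `g` has integral coefficients congruent to `d • a` modulo three. -/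
def CongMul (a : ℕ → ℤ) (g : CuspForm (Gamma0 N) 2) (d : ℤ) : Prop :=
  ∀ n, ∃ m : ℤ, qCoeff g n = (m : ℂ) ∧ (3 : ℤ) ∣ m - d * a n

theorem congMul_heckeOp {a : ℕ → ℤ}
    (heig : FormalHecke.IsEigensystem
      (fun ℓ => if ℓ ∣ N then 0 else ((chiNegThree ℓ : ℤ) : ℤ)) a)
    {ℓ : ℕ} (hℓ : ℓ.Prime) {g : CuspForm (Gamma0 N) 2} {d : ℤ} (hg : CongMul a g d) :
    CongMul a ((heckeOp N 2 ℓ hℓ).1 g) (a ℓ * d) := by
  intro n
  obtain ⟨m₁, hm₁, h₁⟩ := hg (n * ℓ)
  obtain ⟨m₂, hm₂, h₂⟩ := hg (n / ℓ)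
  have he := heig.2 ℓ hℓ n
  rw [mul_comm ℓ n] at he
  rw [coeff_heckeOp hℓ g n, hm₁, hm₂, eulerWeight]
  simp only at he
  by_cases hd : ℓ ∣ n
  · by_cases hN : ℓ ∣ N
    · refine ⟨m₁, by simp [hd, hN], ?_⟩
      rw [if_pos hN, zero_mul, add_zero] at he
      rwa [mul_comm (a ℓ) d, mul_assoc, ← he]
    · refine ⟨m₁ + ℓ * m₂, by simp [hd, hN], ?_⟩
      rw [if_neg hN, if_pos hd] at he
      have h3 := chiNegThree_congr ℓ
      have heq : m₁ + ℓ * m₂ - a ℓ * d * a n = (m₁ - d * a (n * ℓ)) +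
          (ℓ : ℤ) * (m₂ - d * a (n / ℓ)) + ((ℓ : ℤ) - chiNegThree ℓ) * (d * a (n / ℓ)) := by
        linear_combination d * he
      rw [heq]
      exact dvd_add (dvd_add h₁ (h₂.mul_left _)) (h3.mul_right _)
  · refine ⟨m₁, by simp [hd], ?_⟩
    rw [if_neg hd, mul_zero, add_zero] at he
    rwa [mul_comm (a ℓ) d, mul_assoc, ← he]

/-- The mod-three character of the Hecke algebra cut out by a realised eigensystem. -/
theorem exists_modThree_character {a : ℕ → ℤ}
    (heig : FormalHecke.IsEigensystem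
      (fun ℓ => if ℓ ∣ N then 0 else ((chiNegThree ℓ : ℤ) : ℤ)) a)
    (hreal : CuspForm.IsLatticeRealized N a) :
    ∃ χ : ↥(CuspForm.heckeAlgebra N 2 ∅) →+* ZMod 3,
      ∀ ℓ (hℓ : ℓ.Prime), χ (heckeOp N 2 ℓ hℓ) = (a ℓ : ZMod 3) := by
  obtain ⟨f, -, af, haf, hcong⟩ := hreal
  have hf : CongMul a f 1 := fun n => ⟨af n, (haf n).symm, by
    rw [one_mul]
    simpa using dvd_add (hcong n) (bridgeProduct_congr a n)⟩
  let P : 𝕋 → Prop := fun t => ∃ c : ℤ, ∀ g d, CongMul a g d → CongMul a (t.1 g) (c * d)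
  have hP : ∀ t, P t := by
    rintro ⟨t, ht⟩
    show P ⟨t, ht⟩
    induction ht using Algebra.adjoin_induction with
    | mem x hx =>
      rcases hx with ⟨ℓ, hℓ, hℓN, -, rfl⟩ | ⟨q, hqN, hq, -, rfl⟩
      · refine ⟨a ℓ, fun g d hg => ?_⟩
        have := congMul_heckeOp heig hℓ hg
        rwa [heckeOp, dif_neg hℓN] at this
      · refine ⟨a q, fun g d hg => ?_⟩
        have := congMul_heckeOp heig hq hg
        rwa [heckeOp, dif_pos hqN] at this
    | algebraMap r =>
      refine ⟨r, fun g d hg n => ?_⟩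
      obtain ⟨m, hm, h3⟩ := hg n
      refine ⟨r * m, ?_, ?_⟩
      · show qCoeff ⇑((algebraMap ℤ (Module.End ℂ (CuspForm (Gamma0 N) 2)) r) g) n = _
        rw [Module.algebraMap_end_apply, coeff_zsmul, hm]
        push_cast
        rfl
      · rw [mul_assoc, ← mul_sub]
        exact h3.mul_left _
    | add x y _ _ hx hy =>
      obtain ⟨cx, hcx⟩ := hx
      obtain ⟨cy, hcy⟩ := hy
      refine ⟨cx + cy, fun g d hg n => ?_⟩
      obtain ⟨m, hm, h3⟩ := hcx g d hg n
      obtain ⟨m', hm', h3'⟩ := hcy g d hg n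
      refine ⟨m + m', ?_, ?_⟩
      · show qCoeff ⇑((x + y) g) n = _
        rw [LinearMap.add_apply, coeff_add, hm, hm']
        push_cast
        rfl
      · rw [show m + m' - (cx + cy) * d * a n = (m - cx * d * a n) + (m' - cy * d * a n) by ring]
        exact dvd_add h3 h3'
    | mul x y _ _ hx hy =>
      obtain ⟨cx, hcx⟩ := hx
      obtain ⟨cy, hcy⟩ := hy
      refine ⟨cx * cy, fun g d hg => ?_⟩
      have := hcx _ _ (hcy g d hg)
      rw [mul_assoc]
      exact this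
  choose c hc using hP
  have huniq : ∀ (t : 𝕋) (d : ℤ), CongMul a (t.1 f) d → (c t : ZMod 3) = (d : ZMod 3) := by
    intro t d hd
    obtain ⟨m, hm, h3⟩ := hc t f 1 hf 1
    obtain ⟨m', hm', h3'⟩ := hd 1
    have hmm : m = m' := by exact_mod_cast hm.symm.trans hm'
    subst hmm
    rw [heig.1, mul_one] at h3 h3'
    rw [mul_one] at h3
    rw [ZMod.intCast_eq_intCast_iff_dvd_sub]
    have := dvd_sub h3 h3'
    simpa using this
  have hcast : ∀ t, CongMul a (t.1 f) (c t) := fun t => by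
    simpa using hc t f 1 hf
  refine ⟨{ toFun := fun t => (c t : ZMod 3), map_one' := ?_, map_mul' := fun s t => ?_,
            map_zero' := ?_, map_add' := fun s t => ?_ }, fun ℓ hℓ => ?_⟩
  · rw [huniq 1 1 (by simpa using hf), Int.cast_one]
  · rw [huniq (s * t) (c s * c t) (hc s _ _ (hcast t)), Int.cast_mul]
  · rw [huniq 0 0 (fun n => ⟨0, by
      show qCoeff ⇑((0 : Module.End ℂ (CuspForm (Gamma0 N) 2)) f) n = _
      simpa using (coeffLin N 2 n).map_zero, by simp⟩), Int.cast_zero]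
  · rw [huniq (s + t) (c s + c t) ?_, Int.cast_add]
    intro n
    obtain ⟨m, hm, h3⟩ := hcast s n
    obtain ⟨m', hm', h3'⟩ := hcast t n
    refine ⟨m + m', ?_, ?_⟩
    · show qCoeff ⇑((s.1 + t.1) f) n = _
      rw [LinearMap.add_apply, coeff_add, hm, hm']
      push_cast
      rfl
    · rw [show m + m' - (c s + c t) * a n = (m - c s * a n) + (m' - c t * a n) by ring]
      exact dvd_add h3 h3'
  · exact huniq _ _ (by simpa using congMul_heckeOp heig hℓ hf)

end Fermat.Agent.HeckeDuality
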