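import Fermat.Agent.HeckeDuality.CosetSum
import Fermat.Agent.ModFun.JFun

/-!
# The Sturm bound in level one modulo an ideal
-/

set_option autoImplicit false

noncomputable section

open UpperHalfPlane hiding I
open scoped MatrixGroups ModularForm ArithmeticFunction.sigma

namespace Fermat.Agent.HeckeDuality

/-- `∑ σ_k(n) qⁿ`. -/
def sigmaSeries (k : ℕ) : PowerSeries ℤ := PowerSeries.mk fun n => (σ k n : ℤ)

/-- The integral expansion of `E₄`. -/
def eisFour : PowerSeries ℤ := 1 + 240 * sigmaSeries 3

/-- The integral expansion of `E₆`. -/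
def eisSix : PowerSeries ℤ := 1 - 504 * sigmaSeries 5

theorem constantCoeff_sigmaSeries (k : ℕ) : PowerSeries.constantCoeff (sigmaSeries k) = 0 := by
  rw [← PowerSeries.coeff_zero_eq_constantCoeff_apply, sigmaSeries, PowerSeries.coeff_mk]
  simp

theorem constantCoeff_eisFour : PowerSeries.constantCoeff eisFour = 1 := by
  simp [eisFour, constantCoeff_sigmaSeries]

theorem constantCoeff_eisSix : PowerSeries.constantCoeff eisSix = 1 := by
  simp [eisSix, constantCoeff_sigmaSeries]

theorem qExp_eisFour :
    qExpansion 1 ModularForm.E₄ = eisFour.map (Int.castRingHom ℂ) := by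
  ext m
  rw [EisensteinSeries.E_qExpansion_coeff (k := 4) _ ⟨2, rfl⟩, PowerSeries.coeff_map, eisFour,
    map_add, PowerSeries.coeff_one, show (240 : PowerSeries ℤ) = PowerSeries.C 240 from rfl,
    PowerSeries.coeff_C_mul, sigmaSeries, PowerSeries.coeff_mk]
  rw [show (bernoulli 4 : ℚ) = -1/30 by
      norm_num [bernoulli_eq_bernoulli'_of_ne_one, bernoulli'_four]]
  split_ifs with hm
  · simp [hm]
  · push_cast
    simp only [eq_intCast, Int.cast_add, Int.cast_mul, Int.cast_ofNat, Int.cast_natCast,
      Int.cast_zero]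
    norm_num

theorem bernoulli_six : bernoulli 6 = 1 / 42 := by
  rw [bernoulli_eq_bernoulli'_of_ne_one (by norm_num), bernoulli'_def]
  norm_num [Finset.sum_range_succ, bernoulli'_zero, bernoulli'_one, bernoulli'_two,
    bernoulli'_three, bernoulli'_four, bernoulli'_eq_zero_of_odd (n := 5) (by decide) (by norm_num),
    Nat.choose]

theorem qExp_eisSix :
    qExpansion 1 ModularForm.E₆ = eisSix.map (Int.castRingHom ℂ) := by
  ext m
  rw [EisensteinSeries.E_qExpansion_coeff (k := 6) _ ⟨3, rfl⟩, PowerSeries.coeff_map, eisSix,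
    map_sub, PowerSeries.coeff_one, show (504 : PowerSeries ℤ) = PowerSeries.C 504 from rfl,
    PowerSeries.coeff_C_mul, sigmaSeries, PowerSeries.coeff_mk, bernoulli_six]
  split_ifs with hm
  · simp [hm]
  · simp only [eq_intCast, Int.cast_sub, Int.cast_mul, Int.cast_ofNat, Int.cast_natCast,
      Int.cast_zero]
    norm_num

/-- A level one form of even weight `K ∉ {2}` with integral expansion and constant term one. -/
theorem exists_unit_form : ∀ (K : ℕ), Even K → K ≠ 2 →
    ∃ (E : ModularForm 𝒮ℒ (K : ℤ)) (P : PowerSeries ℤ),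
      qExpansion 1 E = P.map (Int.castRingHom ℂ) ∧ PowerSeries.constantCoeff P = 1
  | 0, _, _ => ⟨ModularForm.mcast (by simp) (1 : ModularForm 𝒮ℒ 0), 1, by
      rw [ModularForm.qExpansion_mcast, ModularForm.one_coe_eq_one, UpperHalfPlane.qExpansion_one,
        map_one],
      map_one _⟩
  | 1, h, _ => absurd h (by decide)
  | 2, _, h => absurd rfl h
  | 3, h, _ => absurd h (by decide)
  | 4, _, _ => ⟨ModularForm.E₄, eisFour, qExp_eisFour, constantCoeff_eisFour⟩
  | 5, h, _ => absurd h (by decide)
  | 6, _, _ => ⟨ModularForm.E₆, eisSix, qExp_eisSix, constantCoeff_eisSix⟩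
  | n + 7, h, _ => by
    obtain ⟨E, P, hE, hP⟩ := exists_unit_form (n + 3) (by
      rcases h with ⟨r, hr⟩
      exact ⟨r - 2, by omega⟩) (by omega)
    refine ⟨ModularForm.mcast (by push_cast; ring) (E.mul ModularForm.E₄), P * eisFour, ?_, ?_⟩
    · rw [ModularForm.qExpansion_mcast, ModularForm.qExpansion_mul one_pos
        one_mem_strictPeriods_SL, hE, qExp_eisFour, map_mul]
    · rw [map_mul, hP, constantCoeff_eisFour, one_mul]

theorem weight_two_eq_zero (f : ModularForm 𝒮ℒ 2) : f = 0 :=
  rank_zero_iff_forall_zero.mp ModularForm.levelOne_weight_two_rank_zero f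

/-- **Sturm bound modulo an ideal, level one.** -/
theorem levelOne_map_eq_zero {R : Subring ℂ} (I : Ideal R) :
    ∀ (K : ℕ) (f : ModularForm 𝒮ℒ (K : ℤ)) (P : PowerSeries R),
      qExpansion 1 f = P.map R.subtype →
      (∀ n ≤ K / 12, P.coeff n ∈ I) → P.map (Ideal.Quotient.mk I) = 0 := by
  intro K
  induction K using Nat.strong_induction_on with
  | h K ih =>
  intro f P hP hlow
  have hzero : f = 0 → P.map (Ideal.Quotient.mk I) = 0 := by
    intro hf
    have : P.map R.subtype = 0 := by
      rw [← hP, hf, FunLike.coe_zero, UpperHalfPlane.qExpansion_zero]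
    rw [PowerSeries.map_injective R.subtype Subtype.val_injective (this.trans (map_zero _).symm),
      map_zero]
  rcases Nat.even_or_odd K with hev | hodd
  swap
  · exact hzero (ModularForm.levelOne_odd_weight_eq_zero (by exact_mod_cast hodd) f)
  by_cases h2 : K = 2
  · subst h2
    exact hzero (weight_two_eq_zero f)
  obtain ⟨E, EP, hE, hEP⟩ := exists_unit_form K hev h2
  set ER : PowerSeries R := EP.map (Int.castRingHom R) with hER
  have hERc : ER.map R.subtype = EP.map (Int.castRingHom ℂ) := by
    ext n; simp [hER]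
  set c₀ : R := P.coeff 0 with hc₀
  set f' : ModularForm 𝒮ℒ (K : ℤ) := f - ((c₀ : ℂ)) • E with hf'
  set C : PowerSeries R := P - PowerSeries.C c₀ * ER with hC
  have hf'exp : qExpansion 1 f' = C.map R.subtype := by
    rw [hC, map_sub, map_mul, PowerSeries.map_C, hERc, ← hE, ← hP,
      ← PowerSeries.smul_eq_C_mul, hf']
    simp only [FunLike.coe_sub, FunLike.coe_smul]
    rw [UpperHalfPlane.qExpansion_sub, ModularForm.qExpansion_smul one_pos
      one_mem_strictPeriods_SL]
    · rfl
    · exact ModularFormClass.analyticAt_cuspFunction_zero f one_pos one_mem_strictPeriods_SL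
    · rw [← FunLike.coe_smul]
      exact ModularFormClass.analyticAt_cuspFunction_zero _ one_pos one_mem_strictPeriods_SL
  have hC0 : PowerSeries.constantCoeff C = 0 := by
    rw [hC, map_sub, map_mul, PowerSeries.constantCoeff_C, hER, ← PowerSeries.coeff_zero_eq_constantCoeff_apply,
      ← PowerSeries.coeff_zero_eq_constantCoeff_apply, PowerSeries.coeff_map,
      PowerSeries.coeff_zero_eq_constantCoeff_apply EP, hEP, map_one, mul_one, hc₀, sub_self]
  have hbar : P.map (Ideal.Quotient.mk I) = C.map (Ideal.Quotient.mk I) := by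
    rw [hC, map_sub, map_mul, PowerSeries.map_C, Ideal.Quotient.eq_zero_iff_mem.2
      (hlow 0 (Nat.zero_le _)), map_zero, zero_mul, sub_zero]
  have h0 : (qExpansion 1 f').coeff 0 = 0 := by
    rw [hf'exp, PowerSeries.coeff_map, PowerSeries.coeff_zero_eq_constantCoeff_apply, hC0, map_zero]
  set g := CuspForm.discriminantEquiv (ModularForm.toCuspForm f' h0) with hg
  have hfac := ModularForm.qExpansion_eq_qExpansion_discriminant_mul f' h0
  rw [Fermat.Agent.ModFun.qExpansion_discriminant, ← hg] at hfac
  obtain ⟨D, hD⟩ := PowerSeries.X_dvd_iff.2 hC0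
  set UR : PowerSeries R := ModularCurve.dedekindEtaUnit.map (Int.castRingHom R) with hUR
  set VR : PowerSeries R := ModularCurve.dedekindEtaUnitInv.map (Int.castRingHom R) with hVR
  have hUV : UR * VR = 1 := by
    rw [hUR, hVR, ← map_mul, ModularCurve.dedekindEtaUnit_mul_inv, map_one]
  have hCeq : C = PowerSeries.X * UR * (VR * D) := by
    rw [hD, mul_assoc, ← mul_assoc UR VR D, hUV, one_mul]
  have hgexp : qExpansion 1 g = (VR * D).map R.subtype := by
    have hURc : (PowerSeries.X * UR).map R.subtype =
        (PowerSeries.X * ModularCurve.dedekindEtaUnit).map (Int.castRingHom ℂ) := by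
      rw [map_mul, map_mul, PowerSeries.map_X, PowerSeries.map_X, hUR]
      congr 1
    rw [hf'exp, hCeq, map_mul, hURc] at hfac
    refine (mul_left_cancel₀ ?_ hfac).symm
    intro h
    have h1 := congrArg (fun Q : PowerSeries ℂ => Q.coeff 1) h
    simp [PowerSeries.coeff_succ_X_mul, ModularCurve.constantCoeff_dedekindEtaUnit] at h1
  rw [hbar]
  rcases lt_or_ge K 12 with hK | hK
  · have hg0 : g = 0 :=
      rank_zero_iff_forall_zero.mp (ModularForm.levelOne_neg_weight_rank_zero (by omega)) g
    have hz : (VR * D).map R.subtype = 0 := by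
      rw [← hgexp, hg0, FunLike.coe_zero, UpperHalfPlane.qExpansion_zero]
    rw [hCeq, PowerSeries.map_injective R.subtype Subtype.val_injective (hz.trans (map_zero _).symm),
      mul_zero, map_zero]
  · have hlowD : ∀ n < K / 12, (D.map (Ideal.Quotient.mk I)).coeff n = 0 := by
      intro n hn
      have h1 := congrArg (fun Q : PowerSeries (R ⧸ I) => Q.coeff (n + 1))
        (hbar.trans (congrArg (PowerSeries.map (Ideal.Quotient.mk I)) hD))
      simp only [map_mul, PowerSeries.map_X, PowerSeries.coeff_succ_X_mul] at h1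
      rw [← h1, PowerSeries.coeff_map, Ideal.Quotient.eq_zero_iff_mem]
      exact hlow (n + 1) (by omega)
    have hih : (VR * D).map (Ideal.Quotient.mk I) = 0 := by
      refine ih (K - 12) (by omega)
        (ModularForm.mcast (by omega) g) (VR * D) (by rw [ModularForm.qExpansion_mcast, hgexp])
        fun n hn => ?_
      rw [← Ideal.Quotient.eq_zero_iff_mem, ← PowerSeries.coeff_map, map_mul,
        PowerSeries.coeff_mul]
      refine Finset.sum_eq_zero fun x hx => ?_
      rw [Finset.HasAntidiagonal.mem_antidiagonal] at hx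
      rw [hlowD x.2 (by omega), mul_zero]
    rw [hCeq, map_mul, hih, mul_zero]

end Fermat.Agent.HeckeDuality
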